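import Fermat.Agent.HD.S36Cond

/-!
# The geometric claim, modulo powers of `p`
-/

set_option autoImplicit false
set_option linter.unusedSectionVars false
set_option linter.style.haveILetI false

open ModularCurve ModularCurve.Period

namespace Fermat.Agent.HD

open Fermat.Agent.GalRep Fermat.Agent.Kum Fermat.Agent.HeckeHom Fermat.Agent.ALCoh

noncomputable section

/-- **ClaimF'**: as `ClaimF`, but the traces are only assumed to vanish modulo `p ^ n`. -/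
def ClaimF' (ι : AlgebraicClosure ℚ →+* ℂ) (N N' q p : ℕ) [NeZero N] [Fact p.Prime] : Prop :=
  ∀ (hN : N' ∣ N) (hQ : q ^ 2 ∣ N) (hco : (q ^ 2).Coprime (N / q ^ 2)),
  ∃ A : ValuationSubring (AlgebraicClosure ℚ), A.LiesOverPrime q ∧ ∃ C : ℕ, 0 < C ∧
    ∀ (n : ℕ) (φ : LZ N), (∀ σ ∈ A.inertiaSubgroupIn ℚ,
      rhoF ι (p ^ n) σ (mkX φ : XL N (p ^ n)) = mkX φ) →
      tr hN (ZMod (p ^ n)) (redI (p ^ n) φ) = 0 →
      tr hN (ZMod (p ^ n)) (wop hQ hco (ZMod (p ^ n)) (redI (p ^ n) φ)) = 0 →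
      C • (mkX φ : XL N (p ^ n)) = 0

theorem ClaimF'.claimF {ι : AlgebraicClosure ℚ →+* ℂ} {N N' q p : ℕ} [NeZero N] [Fact p.Prime]
    (h : ClaimF' ι N N' q p) : ClaimF ι N N' q p := by
  intro hN hQ hco
  obtain ⟨A, hA, C, hC, h⟩ := h hN hQ hco
  refine ⟨A, hA, C, hC, fun n φ h1 h2 h3 => h n φ h1 ?_ ?_⟩
  · have := comp_tr hN (Int.castAddHom (ZMod (p ^ n))) φ.1
    rw [h2, AddMonoidHom.comp_zero] at this
    exact this.symm
  · have e1 := comp_tr hN (Int.castAddHom (ZMod (p ^ n))) (wop hQ hco ℤ φ.1)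
    have e2 := comp_wop hQ hco (Int.castAddHom (ZMod (p ^ n))) φ.1
    rw [h3, e2, AddMonoidHom.comp_zero] at e1
    exact e1.symm

end

end Fermat.Agent.HD
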