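import Mathlib

/-!
# Algebra for S36
-/

set_option autoImplicit false
set_option linter.unusedSectionVars false
set_option linter.style.haveILetI false

open TensorProduct

namespace Fermat.Agent.HD

section unip

variable {E : Type*} [Ring E]

theorem aux1 (h2 : ∀ x : E, x + x = 0 → x = 0) {a b : E} (ha : a * a = 0) (hb : b * b = 0)
    (h : (a + b + a * b) * (a + b + a * b) = 0) (h' : (b - a - a * b) * (b - a - a * b) = 0) :
    a * b * a = 0 ∧ a * b + b * a + b * a * b = 0 := by
  have e1 : (a + b + a * b) * (a + b + a * b) =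
      a * b + b * a + b * a * b + a * b * a + a * b * a * b + (a * a + b * b + (a * a) * b +
        a * (b * b)) := by noncomm_ring
  have e2 : (b - a - a * b) * (b - a - a * b) =
      - (a * b + b * a + b * a * b) + a * b * a + a * b * a * b + (a * a + b * b + (a * a) * b -
        a * (b * b)) := by noncomm_ring
  rw [e1, ha, hb] at h
  rw [e2, ha, hb] at h'
  simp only [zero_mul, mul_zero, add_zero, sub_zero] at h h'
  have h3 : a * b * a + a * b * a * b = 0 := by
    apply h2
    have : a * b * a + a * b * a * b + (a * b * a + a * b * a * b) =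
      (a * b + b * a + b * a * b + a * b * a + a * b * a * b) +
      (- (a * b + b * a + b * a * b) + a * b * a + a * b * a * b) := by abel
    rw [this, h, h', add_zero]
  have h4 : a * b * a = 0 := by
    have : a * b * a = (a * b * a + a * b * a * b) * (1 - b) + a * b * a * (b * b) := by noncomm_ring
    rw [this, h3, hb, zero_mul, mul_zero, add_zero]
  refine ⟨h4, ?_⟩
  simpa only [h4, zero_mul, add_zero] using h

theorem aux2 (h2 : ∀ x : E, x + x = 0 → x = 0) {a b : E} (ha : a * a = 0) (hb : b * b = 0)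
    (h : (a + b + a * b) * (a + b + a * b) = 0) (h' : (b - a - a * b) * (b - a - a * b) = 0)
    (k : (b + a + b * a) * (b + a + b * a) = 0) (k' : (a - b - b * a) * (a - b - b * a) = 0) :
    a * b = -(b * a) := by
  obtain ⟨-, h4⟩ := aux1 h2 ha hb h h'
  obtain ⟨h5, -⟩ := aux1 h2 hb ha k k'
  rw [h5, add_zero] at h4
  exact eq_neg_of_add_eq_zero_left h4

variable {G : Type*} [Group G] (ρ : G →* E)

theorem aux3 (h2 : ∀ x : E, x + x = 0 → x = 0) (hρ : ∀ g, (ρ g - 1) * (ρ g - 1) = 0) (g h k : G) :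
    (ρ g - 1) * (ρ h - 1) * (ρ k - 1) = 0 := by
  have hmul : ∀ g h, ρ (g * h) - 1 = (ρ g - 1) + (ρ h - 1) + (ρ g - 1) * (ρ h - 1) := by
    intro g h
    rw [map_mul]
    noncomm_ring
  have hinv : ∀ g, ρ g⁻¹ - 1 = -(ρ g - 1) := by
    intro g
    have h1 : ρ g * ρ g⁻¹ = 1 := by rw [← map_mul, mul_inv_cancel, map_one]
    have h3 : ρ g * (1 - (ρ g - 1)) = 1 := by
      have : ρ g * (1 - (ρ g - 1)) = 1 - (ρ g - 1) * (ρ g - 1) := by noncomm_ring
      rw [this, hρ, sub_zero]
    have h4 : ρ g⁻¹ = 1 - (ρ g - 1) := by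
      have h5 : ρ g⁻¹ * ρ g = 1 := by rw [← map_mul, inv_mul_cancel, map_one]
      calc ρ g⁻¹ = ρ g⁻¹ * (ρ g * (1 - (ρ g - 1))) := by rw [h3, mul_one]
        _ = 1 - (ρ g - 1) := by rw [← mul_assoc, h5, one_mul]
    rw [h4]
    abel
  have hinvmul : ∀ g h, ρ (g⁻¹ * h) - 1 = (ρ h - 1) - (ρ g - 1) - (ρ g - 1) * (ρ h - 1) := by
    intro g h
    rw [hmul, hinv]
    noncomm_ring
  have hanti : ∀ g h, (ρ g - 1) * (ρ h - 1) = -((ρ h - 1) * (ρ g - 1)) := by
    intro g h
    refine aux2 h2 (hρ g) (hρ h) ?_ ?_ ?_ ?_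
    · rw [← hmul]; exact hρ _
    · rw [← hinvmul]; exact hρ _
    · rw [← hmul]; exact hρ _
    · rw [← hinvmul]; exact hρ _
  apply h2
  have e1 := hanti g (h * k)
  rw [hmul] at e1
  have e2 := hanti g h
  have e3 := hanti g k
  set a := ρ g - 1
  set b := ρ h - 1
  set c := ρ k - 1
  have e4 : a * b * c + b * c * a = 0 := by
    have e5 : a * b * c + b * c * a = (a * (b + c + b * c) + (b + c + b * c) * a) -
      (a * b + b * a) - (a * c + c * a) := by noncomm_ring
    rw [e5, e1, e2, e3]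
    abel
  have e6 : b * c * a = a * b * c := by
    calc b * c * a = b * (c * a) := mul_assoc _ _ _
      _ = -(b * (a * c)) := by rw [hanti k g, mul_neg]
      _ = -(b * a) * c := by rw [← mul_assoc, neg_mul]
      _ = a * b * c := by rw [← e2]
  rwa [e6] at e4

/-- **unipotent actions and fixed vectors** -/
theorem kill_cube {O Y : Type*} [CommRing O] [AddCommGroup Y] [Module O Y] (h2 : IsUnit (2 : O))
    (ρ : G →* Module.End O Y) (hρ : ∀ g y, ρ g (ρ g y) - 2 • ρ g y + y = 0) {c : O}
    (hc : ∀ y, (∀ g, ρ g y = y) → c • y = 0) (y : Y) : c ^ 3 • y = 0 := by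
  have h2' : ∀ x : Module.End O Y, x + x = 0 → x = 0 := by
    intro x hx
    obtain ⟨u, hu⟩ := h2
    have h3 : (u : O) • x = 0 := by
      rw [hu, two_smul, hx]
    have h4 := congrArg (fun z => ((u⁻¹ : Oˣ) : O) • z) h3
    simp only [smul_smul, Units.inv_mul, one_smul, smul_zero] at h4
    exact h4
  have hsq : ∀ g, (ρ g - 1) * (ρ g - 1) = 0 := by
    intro g
    ext y
    have := hρ g y
    simp only [Module.End.mul_apply, LinearMap.sub_apply, Module.End.one_apply, map_sub,
      LinearMap.zero_apply]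
    rw [← this, two_smul]
    abel
  have h3 := aux3 ρ h2' hsq
  have h4 : ∀ g h k y, ρ g ((ρ h - 1) ((ρ k - 1) y)) = (ρ h - 1) ((ρ k - 1) y) := by
    intro g h k y
    have := LinearMap.congr_fun (h3 g h k) y
    simp only [Module.End.mul_apply, LinearMap.zero_apply] at this
    rw [LinearMap.sub_apply, Module.End.one_apply] at this
    exact sub_eq_zero.1 this
  have h5 : ∀ h k y, c • ((ρ h - 1) ((ρ k - 1) y)) = 0 := fun h k y =>
    hc _ fun g => h4 g h k y
  have h6 : ∀ k y, c • (c • (ρ k - 1) y) = 0 := by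
    intro k y
    refine hc _ fun h => ?_
    have := h5 h k y
    rw [← map_smul, LinearMap.sub_apply, Module.End.one_apply] at this
    exact sub_eq_zero.1 this
  have h7 : c • (c • (c • y)) = 0 := by
    refine hc _ fun k => ?_
    have := h6 k y
    rw [← map_smul, ← map_smul, LinearMap.sub_apply, Module.End.one_apply] at this
    exact sub_eq_zero.1 this
  rw [← h7, smul_smul, smul_smul]
  congr 1
  ring

end unip

section flat

variable {O X : Type*} [CommRing O] [AddCommGroup X]

theorem piRight_lTensor {J : Type*} [Finite J] (f : J → (X →ₗ[ℤ] X)) (y : O ⊗[ℤ] X)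
    (h : ∀ j, (f j).lTensor O y = 0) : (LinearMap.pi f).lTensor O y = 0 := by
  classical
  haveI := Fintype.ofFinite J
  have key : ∀ y : O ⊗[ℤ] X, TensorProduct.piRight ℤ ℤ O (fun _ : J => X)
      ((LinearMap.pi f).lTensor O y) = fun j => (f j).lTensor O y := by
    intro y
    induction y with
    | zero => simp only [map_zero]; rfl
    | tmul o x =>
      rw [LinearMap.lTensor_tmul]
      funext j
      simp
    | add y y' hy hy' =>
      rw [map_add, map_add, hy, hy']
      funext j
      simp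
  apply (TensorProduct.piRight ℤ ℤ O (fun _ : J => X)).injective
  rw [key, map_zero]
  funext j
  exact h j

/-- fixed vectors after flat base change -/
theorem baseChange_eq_zero_of_fixed [Module.Flat ℤ O] [Finite X] {G : Type*}
    (r : G → (X →ₗ[ℤ] X)) (F : X →ₗ[ℤ] X) (hF : ∀ x, (∀ g, r g x = x) → F x = 0) (y : O ⊗[ℤ] X)
    (hy : ∀ g, (r g).baseChange O y = y) : F.baseChange O y = 0 := by
  classical
  let J : Type _ := Set.range r
  haveI : Finite (X →ₗ[ℤ] X) := Finite.of_injective (fun f : X →ₗ[ℤ] X => (f : X → X))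
    DFunLike.coe_injective
  haveI : Finite J := Subtype.finite
  let f : J → (X →ₗ[ℤ] X) := fun j => j.1 - LinearMap.id
  let φ : X →ₗ[ℤ] (J → X) := LinearMap.pi f
  have h1 : φ.lTensor O y = 0 := by
    refine piRight_lTensor f y fun j => ?_
    obtain ⟨_, g, rfl⟩ := j
    change ((r g) - LinearMap.id).lTensor O y = 0
    rw [LinearMap.lTensor_sub, LinearMap.sub_apply, LinearMap.lTensor_id, LinearMap.id_apply,
      sub_eq_zero]
    exact hy g
  obtain ⟨z, hz⟩ := (Module.Flat.lTensor_exact O (LinearMap.exact_subtype_ker_map φ) y).1 h1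
  have h3 : F ∘ₗ (LinearMap.ker φ).subtype = 0 := by
    ext x
    have h4 : φ x = 0 := x.2
    refine hF x fun g => ?_
    have h5 := congrFun h4 ⟨r g, g, rfl⟩
    have h6 : r g x - x = 0 := h5
    exact sub_eq_zero.1 h6
  change F.lTensor O y = 0
  rw [← hz, ← LinearMap.lTensor_comp_apply, h3, LinearMap.lTensor_zero, LinearMap.zero_apply]

end flat

section eigen

variable {O T L : Type*} [CommRing O] [CommRing T] [AddCommGroup L]

/-- the action of `O ⊗ T` on `O ⊗ L` -/
noncomputable def bigAct (O : Type*) [CommRing O] (ρ : T →+* Module.End ℤ L) :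
    O ⊗[ℤ] T →ₐ[O] Module.End O (O ⊗[ℤ] L) :=
  Algebra.TensorProduct.lift (Algebra.ofId O _)
    ((Module.End.baseChangeHom ℤ O L).comp ρ.toIntAlgHom)
    (fun o t => show Commute _ _ from Algebra.commutes _ _)

theorem bigAct_tmul (ρ : T →+* Module.End ℤ L) (o : O) (t : T) (x : O ⊗[ℤ] L) :
    bigAct O ρ (o ⊗ₜ t) x = o • (ρ t).baseChange O x := by
  rw [bigAct, Algebra.TensorProduct.lift_tmul]
  rfl

theorem bigAct_injective [Module.Flat ℤ O] [Module.Finite ℤ L] [Module.Free ℤ L]
    (ρ : T →+* Module.End ℤ L) (hρ : Function.Injective ρ) :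
    Function.Injective (bigAct O ρ) := by
  rw [injective_iff_map_eq_zero]
  intro x hx
  let u : T →ₗ[ℤ] (L →ₗ[ℤ] L) := ρ.toAddMonoidHom.toIntLinearMap
  have hu : Function.Injective (u.lTensor O) :=
    Module.Flat.lTensor_preserves_injective_linearMap u hρ
  have key : ∀ (x : O ⊗[ℤ] T) (l : L), bigAct O ρ x (1 ⊗ₜ l) =
      lTensorHomEquivHomLTensor ℤ L O L (u.lTensor O x) l := by
    intro x l
    induction x with
    | zero => simp
    | tmul o t =>
      rw [bigAct_tmul, LinearMap.lTensor_tmul, LinearMap.baseChange_tmul,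
        TensorProduct.smul_tmul', smul_eq_mul, mul_one, lTensorHomEquivHomLTensor_apply,
        lTensorHomToHomLTensor_apply]
      rfl
    | add a b ha hb =>
      rw [map_add, LinearMap.add_apply, ha, hb, map_add, map_add, LinearMap.add_apply]
  apply hu
  rw [map_zero]
  apply (lTensorHomEquivHomLTensor ℤ L O L).injective
  rw [map_zero]
  ext l
  rw [← key, hx]
  simp

/-- **eigenvectors of a Hecke ring** -/
theorem exists_eigen [IsDomain O] [IsNoetherianRing O] [Module.Flat ℤ O]
    [Module.Finite ℤ T] [Module.Finite ℤ L] [Module.Free ℤ L] (ρ : T →+* Module.End ℤ L)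
    (hρ : Function.Injective ρ) (χ : T →+* O) :
    ∃ y : O ⊗[ℤ] L, y ≠ 0 ∧ ∀ t, (ρ t).baseChange O y = χ t • y := by
  let B := O ⊗[ℤ] T
  letI : Module B (O ⊗[ℤ] L) := Module.compHom (O ⊗[ℤ] L) (bigAct O ρ).toRingHom
  have hsm : ∀ (b : B) (x : O ⊗[ℤ] L), b • x = bigAct O ρ b x := fun _ _ => rfl
  haveI : IsScalarTower O B (O ⊗[ℤ] L) := ⟨fun o b x => by rw [hsm, hsm, map_smul]; rfl⟩
  haveI : IsNoetherianRing B := IsNoetherianRing.of_finite O B
  haveI : Module.Finite B (O ⊗[ℤ] L) := Module.Finite.of_restrictScalars_finite O B _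
  haveI : Algebra.IsIntegral O B := Algebra.IsIntegral.of_finite O B
  have hann : Module.annihilator B (O ⊗[ℤ] L) = ⊥ := by
    rw [eq_bot_iff]
    intro b hb
    rw [Module.mem_annihilator] at hb
    rw [Ideal.mem_bot]
    apply bigAct_injective (O := O) ρ hρ
    rw [map_zero]
    exact LinearMap.ext fun x => hb x
  let θ : B →ₐ[O] O := Algebra.TensorProduct.lift (Algebra.ofId O O) χ.toIntAlgHom
    (fun _ _ => Commute.all _ _)
  have hθ : ∀ (o : O) (t : T), θ (o ⊗ₜ t) = o * χ t := fun o t => by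
    rw [Algebra.TensorProduct.lift_tmul]; rfl
  set P : Ideal B := RingHom.ker θ with hP
  haveI hprime : P.IsPrime := RingHom.ker_isPrime _
  have hmin : P ∈ (Module.annihilator B (O ⊗[ℤ] L)).minimalPrimes := by
    rw [hann]
    obtain ⟨Q, hQ, hQP⟩ := Ideal.exists_minimalPrimes_le (I := (⊥ : Ideal B)) (J := P) bot_le
    haveI : Q.IsPrime := hQ.1.1
    haveI : Algebra.IsIntegral O (B ⧸ Q) := Algebra.IsIntegral.of_finite O _
    have h1 : (P.map (Ideal.Quotient.mk Q)) = ⊥ := by
      refine Ideal.eq_bot_of_comap_eq_bot (R := O) (S := B ⧸ Q) ?_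
      rw [eq_bot_iff]
      intro o ho
      rw [Ideal.mem_comap] at ho
      have h2 : (algebraMap O (B ⧸ Q)) o = Ideal.Quotient.mk Q (algebraMap O B o) := rfl
      rw [h2, Ideal.mem_quotient_iff_mem hQP] at ho
      rw [hP, RingHom.mem_ker] at ho
      rw [Ideal.mem_bot]
      have h3 : θ (algebraMap O B o) = o := θ.commutes o
      rw [← h3]
      exact ho
    have h2 : P ≤ Q := by
      rw [Ideal.map_eq_bot_iff_le_ker, Ideal.mk_ker] at h1
      exact h1
    rwa [le_antisymm hQP h2] at hQ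
  have hass := Module.associatedPrimes.minimalPrimes_annihilator_subset_associatedPrimes B
    (O ⊗[ℤ] L) hmin
  rw [AssociatedPrimes.mem_iff, isAssociatedPrime_iff] at hass
  obtain ⟨-, x, hx⟩ := hass
  have hx' : ∀ b : B, b ∈ P ↔ b • x = 0 := by
    intro t
    rw [hx, Submodule.mem_colon_singleton, Submodule.mem_bot]
  refine ⟨x, ?_, fun t => ?_⟩
  · rintro rfl
    exact hprime.ne_top (by rw [Ideal.eq_top_iff_one, hx', smul_zero])
  · have h1 : (1 : O) ⊗ₜ[ℤ] t - (χ t) ⊗ₜ[ℤ] (1 : T) ∈ P := by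
      rw [hP, RingHom.mem_ker]
      change θ _ = 0
      rw [map_sub, hθ, hθ, map_one, one_mul, mul_one, sub_self]
    rw [hx', hsm, map_sub, LinearMap.sub_apply, bigAct_tmul, bigAct_tmul, one_smul, map_one,
      sub_eq_zero] at h1
    rw [h1]
    congr 1
    exact LinearMap.congr_fun (LinearMap.baseChange_id) x

end eigen

end Fermat.Agent.HD
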