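import Fermat.Agent.HD.Gal

/-!
# Unipotent inertia and a killing operator: abstract form
-/

set_option autoImplicit false
set_option linter.unusedSectionVars false
set_option linter.style.haveILetI false

open TensorProduct

namespace Fermat.Agent.HD

open Fermat.Agent.GalRep

section core

variable {O X : Type*} [CommRing O] [AddCommGroup X] {r : GQ →* Module.End ℤ X}
  {ι : Type*} {A : ι → Module.End ℤ X} {lam : ι → O}

/-- **HD1**: if the inertia group acts unipotently (in the sense of the pseudo-representation), and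
`F` kills the invariants of inertia and acts on eigenvectors as `c`, then `c ^ 3` kills all
eigenvectors. -/
theorem kill_of_unipotent [Module.Flat ℤ O] [Finite X] (h2 : IsUnit (2 : O)) {m : ℕ}
    (hX : ∀ x : X, m • x = 0)
    (hlev : ∃ L : IntermediateField ℚ (AlgebraicClosure ℚ), FiniteDimensional ℚ L ∧
      ∀ σ : GQ, (∀ x ∈ L, σ x = x) → r σ = 1)
    (hcomm : ∀ i g, r g * A i = A i * r g) {t D : GQ → O} (hps : IsPseudoRep t D)
    (ht : IsLocConst (fun g => Ideal.Quotient.mk (Ideal.span {(m : O)}) (t g)))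
    (hD : IsLocConst (fun g => Ideal.Quotient.mk (Ideal.span {(m : O)}) (D g)))
    {S : Set ℕ} (hS : S.Finite)
    (hfrob : ∀ l : ℕ, l.Prime → l ∉ S → ∀ P : ValuationSubring (AlgebraicClosure ℚ),
      P.LiesOverPrime l → ∀ τ : GQ, P.IsFrobeniusAt τ l → ∃ i, lam i = t τ ∧ D τ = l ∧
        ∀ x : X, r τ (r τ x) - A i (r τ x) + l • x = 0)
    {I : Subgroup GQ} (htI : ∀ σ ∈ I, t σ = 2) (hDI : ∀ σ ∈ I, D σ = 1)
    (F : Module.End ℤ X) (c : O) (hF : ∀ x : X, (∀ σ ∈ I, r σ x = x) → F x = 0)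
    (hFc : ∀ y ∈ eigS A lam, F.baseChange O y = c • y) {y : O ⊗[ℤ] X} (hy : y ∈ eigS A lam) :
    c ^ 3 • y = 0 := by
  let ρ : I →* Module.End O (eigS A lam) := (actE hcomm).comp I.subtype
  have hρ : ∀ (g : I) (z : eigS A lam), ρ g (ρ g z) - 2 • ρ g z + z = 0 := by
    intro g z
    have h := trace_eig hX hlev hcomm hps ht hD hS hfrob (g : GQ) (actE hcomm (g : GQ) z)
    rw [htI g g.2, hDI g g.2, one_smul] at h
    have hinv : actE (O := O) (lam := lam) hcomm (g : GQ)⁻¹ (actE hcomm (g : GQ) z) = z := by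
      rw [← Module.End.mul_apply, ← map_mul, inv_mul_cancel, map_one, Module.End.one_apply]
    rw [hinv] at h
    change actE hcomm (g : GQ) (actE hcomm (g : GQ) z) - 2 • actE hcomm (g : GQ) z + z = 0
    have h2' : (2 : O) • actE hcomm (g : GQ) z = 2 • actE hcomm (g : GQ) z := ofNat_smul_eq_nsmul _ _ _
    rw [← h2', ← h]
    abel
  have hc : ∀ z : eigS A lam, (∀ g, ρ g z = z) → c • z = 0 := by
    intro z hz
    have h1 : F.baseChange O (z : O ⊗[ℤ] X) = 0 := by
      refine baseChange_eq_zero_of_fixed (fun g : I => r g) F (fun x hx => hF x fun σ hσ => hx ⟨σ, hσ⟩)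
        (z : O ⊗[ℤ] X) fun g => ?_
      exact congrArg Subtype.val (hz g)
    rw [hFc _ z.2] at h1
    exact Subtype.ext h1
  exact congrArg Subtype.val (kill_cube h2 ρ hρ hc ⟨y, hy⟩)

end core

section limit

variable {O L : Type*} [CommRing O] [AddCommGroup L]

theorem mem_of_baseChange_eq_zero {X : Type*} [AddCommGroup X] {m : ℕ} (π : L →ₗ[ℤ] X)
    (hsurj : Function.Surjective π) (hker : ∀ x, π x = 0 → ∃ y, x = m • y) (z : O ⊗[ℤ] L)
    (hz : π.baseChange O z = 0) : ∃ w : O ⊗[ℤ] L, z = (m : O) • w := by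
  let f : L →ₗ[ℤ] L := (m : ℤ) • LinearMap.id
  -- factor through the quotient by the range of `f`
  let K : Submodule ℤ L := LinearMap.ker π
  have hex : Function.Exact K.subtype π := by
    rw [LinearMap.exact_iff, Submodule.range_subtype]
  have h1 := lTensor_exact O hex hsurj
  obtain ⟨w, hw⟩ := (h1 z).1 hz
  rw [← hw]
  clear hw hz
  induction w with
  | zero => exact ⟨0, by rw [map_zero, smul_zero]⟩
  | tmul o k =>
    obtain ⟨y, hy⟩ := hker k k.2
    refine ⟨o ⊗ₜ y, ?_⟩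
    rw [LinearMap.lTensor_tmul, Submodule.subtype_apply, hy, TensorProduct.tmul_smul,
      Nat.cast_smul_eq_nsmul]
  | add a b ha hb =>
    obtain ⟨a', ha'⟩ := ha
    obtain ⟨b', hb'⟩ := hb
    exact ⟨a' + b', by rw [map_add, ha', hb', smul_add]⟩

theorem mem_of_baseChange_eq_zero' [Module.Flat ℤ O] {X : Type*} [AddCommGroup X] {m : ℕ}
    (π : L →ₗ[ℤ] X) (hker : ∀ x, π x = 0 → ∃ y, x = m • y) (z : O ⊗[ℤ] L)
    (hz : π.baseChange O z = 0) : ∃ w : O ⊗[ℤ] L, z = (m : O) • w := by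
  refine mem_of_baseChange_eq_zero π.rangeRestrict π.surjective_rangeRestrict
    (fun x hx => hker x (congrArg Subtype.val hx)) z ?_
  have h1 : Function.Injective ((LinearMap.range π).subtype.lTensor O) :=
    Module.Flat.lTensor_preserves_injective_linearMap _ (Submodule.injective_subtype _)
  apply h1
  rw [map_zero, ← hz]
  have h2 : π = (LinearMap.range π).subtype ∘ₗ π.rangeRestrict := rfl
  conv_rhs => rw [h2]
  rw [LinearMap.baseChange_comp]
  rfl

/-- **HD2**: passage to the limit. -/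
theorem limit_eq_zero [IsDomain O] [IsNoetherianRing O] [Module.Flat ℤ O] [Module.Finite ℤ L]
    [Module.Free ℤ L]
    {p : ℕ} (hp : ¬ IsUnit (p : O)) {X : ℕ → Type*} [∀ n, AddCommGroup (X n)]
    (π : ∀ n, L →ₗ[ℤ] X n)
    (hker : ∀ n x, π n x = 0 → ∃ y, x = p ^ n • y) {c : O} (hc : c ≠ 0) (z : O ⊗[ℤ] L)
    (hz : ∀ n, c • (π n).baseChange O z = 0) : z = 0 := by
  have h1 : ∀ n, ∃ w : O ⊗[ℤ] L, c • z = (p : O) ^ n • w := by
    intro n
    obtain ⟨w, hw⟩ := mem_of_baseChange_eq_zero' (π n) (m := p ^ n) (hker n) (c • z)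
      (by rw [map_smul]; exact hz n)
    exact ⟨w, by rw [hw, Nat.cast_pow]⟩
  -- coordinates
  let b := (Module.Free.chooseBasis ℤ L).baseChange O
  have h2 : ∀ i, b.repr (c • z) i = 0 := by
    intro i
    have h3 : b.repr (c • z) i ∈ (⨅ n : ℕ, (Ideal.span {(p : O)}) ^ n : Ideal O) := by
      rw [Ideal.mem_iInf]
      intro n
      obtain ⟨w, hw⟩ := h1 n
      rw [hw, map_smul, Finsupp.smul_apply, Ideal.span_singleton_pow, smul_eq_mul]
      exact Ideal.mul_mem_right _ _ (Ideal.mem_span_singleton_self _)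
    rw [Ideal.iInf_pow_eq_bot_of_isDomain (Ideal.span {(p : O)}) (by
      rwa [Ne, Ideal.span_singleton_eq_top])] at h3
    exact h3
  have h4 : c • z = 0 := by
    apply b.repr.injective
    refine Finsupp.ext fun i => ?_
    rw [h2 i, map_zero, Finsupp.zero_apply]
  apply b.repr.injective
  refine Finsupp.ext fun i => ?_
  have h5 := h2 i
  rw [map_smul, Finsupp.smul_apply, smul_eq_mul] at h5
  rw [map_zero, Finsupp.zero_apply]
  exact (mul_eq_zero.1 h5).resolve_left hc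

/-- **HD core**. Families `X n` of finite Galois modules with operators `A n i`, maps
`π n : L → X n` with kernel `p ^ n L`; `ξ ∈ O ⊗ L` an eigenvector for which inertia `I` acts with
trace `2`; `F n` kills `I`-invariants and acts as `c ≠ 0` on eigenvectors. Then `ξ = 0`. -/
theorem core [IsDomain O] [IsNoetherianRing O] [Module.Flat ℤ O] [Module.Finite ℤ L]
    [Module.Free ℤ L] (h2 : IsUnit (2 : O)) {p : ℕ} (hp : ¬ IsUnit (p : O))
    {X : ℕ → Type*} [∀ n, AddCommGroup (X n)] [∀ n, Finite (X n)]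
    (hX : ∀ n (x : X n), p ^ n • x = 0)
    (π : ∀ n, L →ₗ[ℤ] X n) (hker : ∀ n x, π n x = 0 → ∃ y, x = p ^ n • y)
    (r : ∀ n, GQ →* Module.End ℤ (X n))
    (hlev : ∀ n, ∃ L : IntermediateField ℚ (AlgebraicClosure ℚ), FiniteDimensional ℚ L ∧
      ∀ σ : GQ, (∀ x ∈ L, σ x = x) → r n σ = 1)
    {ι : Type*} (A : ∀ n, ι → Module.End ℤ (X n)) (lam : ι → O)
    (hcomm : ∀ n i g, r n g * A n i = A n i * r n g) {t D : GQ → O} (hps : IsPseudoRep t D)
    (ht : ∀ n, IsLocConst (fun g => Ideal.Quotient.mk (Ideal.span {((p ^ n : ℕ) : O)}) (t g)))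
    (hD : ∀ n, IsLocConst (fun g => Ideal.Quotient.mk (Ideal.span {((p ^ n : ℕ) : O)}) (D g)))
    {S : Set ℕ} (hS : S.Finite)
    (hfrob : ∀ l : ℕ, l.Prime → l ∉ S → ∀ P : ValuationSubring (AlgebraicClosure ℚ),
      P.LiesOverPrime l → ∀ τ : GQ, P.IsFrobeniusAt τ l → ∃ i, lam i = t τ ∧ D τ = l ∧
        ∀ n (x : X n), r n τ (r n τ x) - A n i (r n τ x) + l • x = 0)
    {I : Subgroup GQ} (htI : ∀ σ ∈ I, t σ = 2) (hDI : ∀ σ ∈ I, D σ = 1)
    (F : ∀ n, Module.End ℤ (X n)) {c : O} (hc : c ≠ 0)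
    (hF : ∀ n (x : X n), (∀ σ ∈ I, r n σ x = x) → F n x = 0)
    (hFc : ∀ n, ∀ y ∈ eigS (A n) lam, (F n).baseChange O y = c • y) (ξ : O ⊗[ℤ] L)
    (hξ : ∀ n, (π n).baseChange O ξ ∈ eigS (A n) lam) : ξ = 0 :=
  limit_eq_zero hp π hker (pow_ne_zero 3 hc) ξ fun n =>
    kill_of_unipotent h2 (hX n) (hlev n) (hcomm n) hps (ht n) (hD n) hS
      (fun l hl hlS P hP τ hτ => by
        obtain ⟨i, h1, h3, h4⟩ := hfrob l hl hlS P hP τ hτ
        exact ⟨i, h1, h3, h4 n⟩)
      htI hDI (F n) c (hF n) (hFc n) (hξ n)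

end limit

/-- local constancy modulo powers of `p` from local constancy modulo powers of the maximal ideal -/
theorem isLocConst_span {O : Type*} [CommRing O] [IsDomain O] [IsDiscreteValuationRing O]
    {a : O} (ha : a ≠ 0) {t : GQ → O}
    (ht : ∀ n, IsLocConst (fun g => Ideal.Quotient.mk (IsLocalRing.maximalIdeal O ^ n) (t g))) :
    IsLocConst (fun g => Ideal.Quotient.mk (Ideal.span {a}) (t g)) := by
  obtain ⟨ϖ, hϖ⟩ := IsDiscreteValuationRing.exists_irreducible O
  obtain ⟨n, hn⟩ := IsDiscreteValuationRing.associated_pow_irreducible ha hϖ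
  have h1 : IsLocalRing.maximalIdeal O ^ n = Ideal.span {a} := by
    rw [hϖ.maximalIdeal_eq, Ideal.span_singleton_pow, Ideal.span_singleton_eq_span_singleton]
    exact hn.symm
  rw [← h1]
  exact ht n

end Fermat.Agent.HD
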