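import Fermat.Agent.HD.Alg
import Fermat.Agent.GalRep.LocalCond

/-!
# Unipotent inertia and fixed vectors on Hecke modules
-/

set_option autoImplicit false
set_option linter.unusedSectionVars false
set_option linter.style.haveILetI false

open TensorProduct

namespace Fermat.Agent.HD

open Fermat.Agent.GalRep

variable {O X : Type*} [CommRing O] [AddCommGroup X]

theorem baseChange_mul (f g : Module.End ℤ X) (y : O ⊗[ℤ] X) :
    (f * g).baseChange O y = f.baseChange O (g.baseChange O y) := by
  rw [show f * g = f ∘ₗ g from rfl, LinearMap.baseChange_comp, LinearMap.comp_apply]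

theorem baseChange_one_apply (y : O ⊗[ℤ] X) :
    (1 : Module.End ℤ X).baseChange O y = y :=
  LinearMap.congr_fun (LinearMap.baseChange_id) y

theorem smul_tensor_eq_zero {a : O} {m : ℕ} (hX : ∀ x : X, m • x = 0)
    (ha : a ∈ Ideal.span {(m : O)}) (y : O ⊗[ℤ] X) : a • y = 0 := by
  obtain ⟨b, rfl⟩ := Ideal.mem_span_singleton'.1 ha
  induction y with
  | zero => rw [smul_zero]
  | tmul o x =>
    have h1 : (b * (m : O)) • (o ⊗ₜ[ℤ] x) = ((m : ℤ) • (b * o)) ⊗ₜ[ℤ] x := by
      rw [TensorProduct.smul_tmul', smul_eq_mul, zsmul_eq_mul]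
      congr 1
      push_cast
      ring
    rw [h1, TensorProduct.smul_tmul, natCast_zsmul, hX, TensorProduct.tmul_zero]
  | add y y' hy hy' => rw [smul_add, hy, hy', add_zero]

section act

variable (r : GQ →* Module.End ℤ X)

/-- the action after base change -/
noncomputable def actO (O : Type*) [CommRing O] : GQ →* Module.End O (O ⊗[ℤ] X) where
  toFun g := (r g).baseChange O
  map_one' := LinearMap.ext fun y => by rw [map_one]; exact baseChange_one_apply y
  map_mul' g h := LinearMap.ext fun y => by rw [map_mul]; exact baseChange_mul _ _ y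

theorem actO_apply (g : GQ) (y : O ⊗[ℤ] X) : actO r O g y = (r g).baseChange O y := rfl

variable {ι : Type*} (A : ι → Module.End ℤ X) (lam : ι → O)

/-- eigenvectors -/
def eigS : Submodule O (O ⊗[ℤ] X) where
  carrier := {y | ∀ i, (A i).baseChange O y = lam i • y}
  zero_mem' i := by rw [map_zero, smul_zero]
  add_mem' {y y'} h h' i := by rw [map_add, h i, h' i, smul_add]
  smul_mem' c y h i := by rw [map_smul, h i, smul_comm]

theorem mem_eigS {y : O ⊗[ℤ] X} : y ∈ eigS A lam ↔ ∀ i, (A i).baseChange O y = lam i • y := Iff.rfl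

variable {r A lam}

theorem actO_mem (hcomm : ∀ i g, r g * A i = A i * r g) {y : O ⊗[ℤ] X} (hy : y ∈ eigS A lam)
    (g : GQ) : actO r O g y ∈ eigS A lam := by
  intro i
  rw [actO_apply, ← baseChange_mul, ← hcomm, baseChange_mul, hy i, map_smul]

/-- the Galois action on the eigenvectors -/
noncomputable def actE (hcomm : ∀ i g, r g * A i = A i * r g) : GQ →* Module.End O (eigS A lam) where
  toFun g := (actO r O g).restrict (fun y hy => actO_mem hcomm hy g)
  map_one' := LinearMap.ext fun y => Subtype.ext (by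
    rw [LinearMap.coe_restrict_apply, map_one]; rfl)
  map_mul' g h := LinearMap.ext fun y => Subtype.ext (by
    rw [LinearMap.coe_restrict_apply, map_mul]; rfl)

theorem coe_actE (hcomm : ∀ i g, r g * A i = A i * r g) (g : GQ) (y : eigS A lam) :
    ((actE hcomm g y : eigS A lam) : O ⊗[ℤ] X) = (r g).baseChange O y := rfl

/-- **the trace identity on eigenvectors** -/
theorem trace_eig {m : ℕ} (hX : ∀ x : X, m • x = 0)
    (hlev : ∃ L : IntermediateField ℚ (AlgebraicClosure ℚ), FiniteDimensional ℚ L ∧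
      ∀ σ : GQ, (∀ x ∈ L, σ x = x) → r σ = 1)
    (hcomm : ∀ i g, r g * A i = A i * r g) {t D : GQ → O} (hps : IsPseudoRep t D)
    (ht : IsLocConst (fun g => Ideal.Quotient.mk (Ideal.span {(m : O)}) (t g)))
    (hD : IsLocConst (fun g => Ideal.Quotient.mk (Ideal.span {(m : O)}) (D g)))
    {S : Set ℕ} (hS : S.Finite)
    (hfrob : ∀ l : ℕ, l.Prime → l ∉ S → ∀ P : ValuationSubring (AlgebraicClosure ℚ),
      P.LiesOverPrime l → ∀ τ : GQ, P.IsFrobeniusAt τ l → ∃ i, lam i = t τ ∧ D τ = l ∧
        ∀ x : X, r τ (r τ x) - A i (r τ x) + l • x = 0) (g : GQ) (y : eigS A lam) :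
    actE hcomm g y + D g • actE hcomm g⁻¹ y = t g • y := by
  obtain ⟨L, hL, hLr⟩ := hlev
  have hE1 : ∀ σ : GQ, (∀ x ∈ L, σ x = x) → actE (O := O) (lam := lam) hcomm σ = 1 := by
    intro σ hσ
    refine LinearMap.ext fun y => Subtype.ext ?_
    rw [coe_actE, hLr σ hσ, baseChange_one_apply]
    rfl
  have hcongr : ∀ {a b : O}, Ideal.Quotient.mk (Ideal.span {(m : O)}) a =
      Ideal.Quotient.mk (Ideal.span {(m : O)}) b → ∀ z : eigS A lam, a • z = b • z := by
    intro a b hab z
    rw [Ideal.Quotient.eq] at hab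
    have := smul_tensor_eq_zero hX hab (z : O ⊗[ℤ] X)
    rw [sub_smul, sub_eq_zero] at this
    exact Subtype.ext this
  let f₁ : GQ → Module.End O (eigS A lam) := fun g => actE hcomm g + D g • actE hcomm g⁻¹
  let f₂ : GQ → Module.End O (eigS A lam) := fun g => t g • 1
  have h1 : IsLocConst f₁ := by
    obtain ⟨L', hL', h'⟩ := hD
    haveI := hL
    haveI := hL'
    refine ⟨L ⊔ L', inferInstance, fun σ hσ g => ?_⟩
    have hσL : ∀ x ∈ L, σ x = x := fun x hx => hσ x ((le_sup_left : L ≤ L ⊔ L') hx)
    have hσL' : ∀ x ∈ L', σ x = x := fun x hx => hσ x ((le_sup_right : L' ≤ L ⊔ L') hx)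
    have hσ1 : actE (O := O) (lam := lam) hcomm σ = 1 := hE1 σ hσL
    have hσ2 : actE (O := O) (lam := lam) hcomm σ⁻¹ = 1 := by
      have : actE (O := O) (lam := lam) hcomm σ⁻¹ * actE hcomm σ = 1 := by
        rw [← map_mul, inv_mul_cancel, map_one]
      rwa [hσ1, mul_one] at this
    simp only [f₁]
    rw [map_mul, hσ1, mul_one, mul_inv_rev, map_mul, hσ2, one_mul]
    congr 1
    refine LinearMap.ext fun z => ?_
    rw [LinearMap.smul_apply, LinearMap.smul_apply]
    exact hcongr (h' σ hσL' g) _
  have h2 : IsLocConst f₂ := by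
    obtain ⟨L', hL', h'⟩ := ht
    refine ⟨L', hL', fun σ hσ g => ?_⟩
    refine LinearMap.ext fun z => ?_
    simp only [f₂]
    rw [LinearMap.smul_apply, LinearMap.smul_apply]
    exact hcongr (h' σ hσ g) _
  have key : f₁ = f₂ := by
    refine h1.eq_of_forall_pow h2 hS fun l hl hlS P hP τ hτ n => ?_
    obtain ⟨i, hi, hDτ, hrel⟩ := hfrob l hl hlS P hP τ hτ
    have hrel2 : ∀ z : eigS A lam, actE hcomm τ (actE hcomm τ z) =
        t τ • actE hcomm τ z - (l : O) • z := by
      intro z
      have e1 : (r τ * r τ - A i * r τ + (l : ℤ) • (1 : Module.End ℤ X)) = 0 := by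
        refine LinearMap.ext fun x => ?_
        have := hrel x
        simp only [LinearMap.add_apply, LinearMap.sub_apply, Module.End.mul_apply,
          LinearMap.smul_apply, Module.End.one_apply, LinearMap.zero_apply, natCast_zsmul]
        exact this
      have e2 := congrArg (fun F : Module.End ℤ X => F.baseChange O (z : O ⊗[ℤ] X)) e1
      simp only [LinearMap.baseChange_add, LinearMap.baseChange_sub, LinearMap.add_apply,
        LinearMap.sub_apply, baseChange_mul, LinearMap.baseChange_smul, LinearMap.smul_apply,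
        baseChange_one_apply, LinearMap.baseChange_zero, LinearMap.zero_apply] at e2
      have e3 : (A i).baseChange O ((r τ).baseChange O (z : O ⊗[ℤ] X)) =
          lam i • (r τ).baseChange O (z : O ⊗[ℤ] X) := (actE hcomm τ z).2 i
      rw [e3, hi] at e2
      apply Subtype.ext
      have e4 : ((l : O) • z : eigS A lam) = ((l : ℤ) • z : eigS A lam) := by
        rw [natCast_zsmul, Nat.cast_smul_eq_nsmul]
      rw [e4]
      change (r τ).baseChange O ((r τ).baseChange O (z : O ⊗[ℤ] X)) =
        t τ • (r τ).baseChange O (z : O ⊗[ℤ] X) - (l : ℤ) • (z : O ⊗[ℤ] X)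
      rw [← sub_eq_zero, ← e2]
      abel
    have hD' : ∀ k : ℕ, D (τ ^ k) = (l : O) ^ k := by
      intro k
      induction k with
      | zero => rw [pow_zero, hps.D_one, pow_zero]
      | succ k ih => rw [pow_succ, hps.D_mul, ih, hDτ, pow_succ]
    have hinv : ∀ z : eigS A lam, actE hcomm τ (actE hcomm τ⁻¹ z) = z := fun z => by
      rw [← Module.End.mul_apply, ← map_mul, mul_inv_cancel, map_one, Module.End.one_apply]
    have ht2 : ∀ k : ℕ, t (τ ^ (k + 2)) = t τ * t (τ ^ (k + 1)) - (l : O) * t (τ ^ k) := by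
      intro k
      have := hps.rel (τ ^ (k + 1)) τ
      rw [← pow_succ, hDτ, pow_succ τ k, mul_inv_cancel_right] at this
      rw [pow_succ τ k]
      linear_combination this
    -- two step induction
    have hU : ∀ k : ℕ, (∀ z : eigS A lam, actE hcomm (τ ^ k) z + D (τ ^ k) •
        actE hcomm (τ ^ k)⁻¹ z = t (τ ^ k) • z) ∧ (∀ z : eigS A lam,
        actE hcomm (τ ^ (k + 1)) z + D (τ ^ (k + 1)) • actE hcomm (τ ^ (k + 1))⁻¹ z =
          t (τ ^ (k + 1)) • z) := by
      intro k
      induction k with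
      | zero =>
        refine ⟨fun z => ?_, fun z => ?_⟩
        · rw [pow_zero, inv_one, map_one, hps.D_one, one_smul, hps.t_one, Module.End.one_apply,
            two_smul]
        · rw [zero_add, pow_one, hDτ]
          have e1 := hrel2 (actE hcomm τ⁻¹ z)
          rw [hinv] at e1
          rw [e1]
          abel
      | succ k ih =>
        refine ⟨ih.2, fun z => ?_⟩
        have e1 : actE hcomm (τ ^ (k + 2)) z = t τ • actE hcomm (τ ^ (k + 1)) z -
            (l : O) • actE hcomm (τ ^ k) z := by
          have h3 : τ ^ (k + 2) = τ * (τ * τ ^ k) := by rw [pow_succ', pow_succ']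
          have h4 : τ ^ (k + 1) = τ * τ ^ k := pow_succ' _ _
          rw [h3, h4, map_mul, map_mul, Module.End.mul_apply, Module.End.mul_apply, hrel2]
        have e2 : (l : O) • actE hcomm (τ ^ (k + 2))⁻¹ z = t τ • actE hcomm (τ ^ (k + 1))⁻¹ z -
            actE hcomm (τ ^ k)⁻¹ z := by
          have h3 := hrel2 (actE hcomm (τ ^ (k + 2))⁻¹ z)
          have h4 : ∀ j : ℕ, actE hcomm τ (actE hcomm (τ ^ (j + 1))⁻¹ z) =
              actE hcomm (τ ^ j)⁻¹ z := by
            intro j
            rw [← Module.End.mul_apply, ← map_mul, pow_succ, mul_inv_rev, mul_inv_cancel_left]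
          rw [h4, h4] at h3
          rw [h3]
          abel
        have e3 : D (τ ^ (k + 2)) • actE hcomm (τ ^ (k + 2))⁻¹ z =
            t τ • (D (τ ^ (k + 1)) • actE hcomm (τ ^ (k + 1))⁻¹ z) -
              (l : O) • (D (τ ^ k) • actE hcomm (τ ^ k)⁻¹ z) := by
          have h5 : (l : O) ^ (k + 2) = (l : O) ^ (k + 1) * l := pow_succ _ _
          rw [hD', hD', hD', h5, mul_smul, e2, smul_sub, smul_comm (t τ), smul_smul (l : O),
            ← pow_succ']
        change actE hcomm (τ ^ (k + 2)) z + D (τ ^ (k + 2)) • actE hcomm (τ ^ (k + 2))⁻¹ z =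
          t (τ ^ (k + 2)) • z
        have e4 : (t τ * t (τ ^ (k + 1)) - (l : O) * t (τ ^ k)) • z =
            t τ • (t (τ ^ (k + 1)) • z) - (l : O) • (t (τ ^ k) • z) := by
          have e5 : ∀ (a b : O) (w : eigS A lam), (a - b) • w = a • w - b • w :=
            fun a b w => _root_.sub_smul a b w
          rw [e5, mul_smul, mul_smul]
        rw [e1, e3, ht2, e4, ← ih.1 z, ← ih.2 z, smul_add, smul_add]
        abel
    refine LinearMap.ext fun z => ?_
    exact (hU n).1 z
  exact LinearMap.congr_fun (congrFun key g) y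

end act

end Fermat.Agent.HD
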