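import Fermat.Agent.ALCoh.Kill
import Fermat.Agent.AL.Newform
import Fermat.Agent.AL.Level

/-!
# Killing the part of lower level, for a newform of intermediate level
-/

set_option autoImplicit false

open ModularFormClass CuspForm ModularCurve ModularCurve.Period Fermat.Agent.HeckeHom

namespace Fermat.Agent.HD

open Fermat.Agent.ALCoh

noncomputable section

variable {M N N' : ℕ} [NeZero M] [NeZero N] [NeZero N'] {S : Set ℕ}

/-- **Killing lower levels.** -/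
theorem exists_kill' {g : CuspForm (CongruenceSubgroup.Gamma0 M) 2} (hg : g.IsNewform)
    (hS : S.Finite) (hNS : ∀ q : ℕ, q.Prime → q ∣ N → q ∈ S)
    (θ : heckeAlgebra N 2 S →+* ℂ)
    (hθ : ∀ (l : ℕ) (hl : l.Prime) (hlN : ¬ l ∣ N) (hlS : l ∉ S),
      θ (heckeAlgebra.T hl hlN hlS) = qCoeff g l) (hN : N' ∣ N) (hM : ¬ M ∣ N') :
    ∃ a : heckeAlgebra N 2 S, θ a ≠ 0 ∧ ∀ F : LZ N →+ LZ N',
      (∀ (l : ℕ) (hl : l.Prime) (hlN : ¬ l ∣ N) (hlM : ¬ l ∣ N') (φ : LZ N),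
        F ⟨opT N hl hlN ℤ φ.1, isParabolicHom_opT hl hlN φ.2⟩ =
          ⟨opT N' hl hlM ℤ (F φ).1, isParabolicHom_opT hl hlM (F φ).2⟩) →
      ∀ φ : LZ N, F (actL N S a φ) = 0 := by
  have hMS : ∀ q : ℕ, q.Prime → q ∣ N' → q ∈ S := fun q hq hqM => hNS q hq (hqM.trans hN)
  by_cases hker : ∀ P : MvPolynomial (sg S) ℤ, evT hMS P = 0 → θ (evT hNS P) = 0
  · exfalso
    let θ' : heckeAlgebra N' 2 S →+* ℂ := RingHom.liftOfSurjective (evT hMS)
      (evT_surjective (N := N') hMS) ⟨θ.comp (evT hNS), fun P hP => hker P hP⟩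
    have hθ' : ∀ P, θ' (evT hMS P) = θ (evT hNS P) := fun P =>
      RingHom.liftOfRightInverse_comp_apply _ _ _ _ P
    obtain ⟨f, hf0, hf⟩ := exists_eigenform_of_char θ'
    have h1 : ∀ l : ℕ, l.Prime → ¬ l ∣ N' → l ∉ S →
        ModularForm.heckeT 2 l f = qCoeff g l • (f : UpperHalfPlane → ℂ) := by
      intro l hl hlM hlS
      have hlN : ¬ l ∣ N := fun h => hlS (hNS l hl h)
      have h2 := hf (heckeAlgebra.T hl hlM hlS)
      have h3 : θ' (heckeAlgebra.T hl hlM hlS) = qCoeff g l := by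
        have := hθ' (MvPolynomial.X (⟨l, hl, hlS⟩ : sg S))
        rw [evT_X, evT_X] at this
        rw [this]
        exact hθ l hl hlN hlS
      rw [h3] at h2
      exact congrArg (fun F : CuspForm (CongruenceSubgroup.Gamma0 N') 2 =>
        (F : UpperHalfPlane → ℂ)) h2
    obtain ⟨M₀, hM₀, h, hh, hhg⟩ := AL.exists_newform_of_eigenvector N' hf0 h1
    haveI : NeZero M₀ := ⟨fun h => NeZero.ne N' (Nat.eq_zero_of_zero_dvd (h ▸ hM₀))⟩
    have h4 : M = M₀ := by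
      refine AL.newform_level_unique hg hh hS fun l hl _ hlS => ?_
      exact (hhg l hl (fun h => hlS (hMS l hl h)) hlS).symm
    exact hM (h4 ▸ hM₀)
  · push Not at hker
    obtain ⟨P, hP, hP'⟩ := hker
    refine ⟨evT hNS P, hP', fun F hF φ => ?_⟩
    rw [equivariant hNS hMS F hF P φ, hP, map_zero, LinearMap.zero_apply]

/-- **Killing traces** -/
theorem exists_kill_tr' {g : CuspForm (CongruenceSubgroup.Gamma0 M) 2} (hg : g.IsNewform)
    (hS : S.Finite) (hNS : ∀ q : ℕ, q.Prime → q ∣ N → q ∈ S)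
    (θ : heckeAlgebra N 2 S →+* ℂ)
    (hθ : ∀ (l : ℕ) (hl : l.Prime) (hlN : ¬ l ∣ N) (hlS : l ∉ S),
      θ (heckeAlgebra.T hl hlN hlS) = qCoeff g l) (hN : N' ∣ N) (hM : ¬ M ∣ N')
    {Q : ℕ} (hQ : Q ∣ N) (hco : Q.Coprime (N / Q)) :
    ∃ a : heckeAlgebra N 2 S, θ a ≠ 0 ∧ ∀ φ : LZ N,
      tr hN ℤ (actL N S a φ).1 = 0 ∧ tr hN ℤ (wop hQ hco ℤ (actL N S a φ).1) = 0 := by
  obtain ⟨a, ha, h⟩ := exists_kill' hg hS hNS θ hθ hN hM
  have ptr : ∀ φ : Additive (GG N) →+ ℤ, IsParabolicHom (GG N) φ →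
      IsParabolicHom (GG N') (tr hN ℤ φ) := fun φ hφ =>
    isParabolicHom_op (famTr (exists_isReps hN).choose_spec.choose_spec) hφ
  have pw : ∀ φ : Additive (GG N) →+ ℤ, IsParabolicHom (GG N) φ →
      IsParabolicHom (GG N) (wop hQ hco ℤ φ) := fun φ hφ =>
    isParabolicHom_op (famW hQ (ne_zero_of_dvd hQ) (wMat_mem hQ hco)) hφ
  refine ⟨a, ha, fun φ => ⟨?_, ?_⟩⟩
  · let F : LZ N →+ LZ N' :=
      { toFun := fun φ => ⟨tr hN ℤ φ.1, ptr _ φ.2⟩
        map_zero' := Subtype.ext (map_zero (tr hN ℤ))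
        map_add' := fun φ ψ => Subtype.ext (map_add (tr hN ℤ) φ.1 ψ.1) }
    have h1 := h F (fun l hl hlN hlM φ => Subtype.ext (by
      change tr hN ℤ (opT N hl hlN ℤ φ.1) = opT N' hl hlM ℤ (tr hN ℤ φ.1)
      rw [opT_eq hl hlN, opT_eq hl hlM, tr_T_comm' hN hl hlN hlM])) φ
    exact congrArg Subtype.val h1
  · let F : LZ N →+ LZ N' :=
      { toFun := fun φ => ⟨tr hN ℤ (wop hQ hco ℤ φ.1), ptr _ (pw _ φ.2)⟩
        map_zero' := Subtype.ext (by
          change tr hN ℤ (wop hQ hco ℤ 0) = 0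
          rw [map_zero, map_zero])
        map_add' := fun φ ψ => Subtype.ext (by
          change tr hN ℤ (wop hQ hco ℤ (φ.1 + ψ.1)) = _
          rw [map_add, map_add]; rfl) }
    have h1 := h F (fun l hl hlN hlM φ => Subtype.ext (by
      change tr hN ℤ (wop hQ hco ℤ (opT N hl hlN ℤ φ.1)) =
        opT N' hl hlM ℤ (tr hN ℤ (wop hQ hco ℤ φ.1))
      rw [opT_eq hl hlN, opT_eq hl hlM, wop_T_comm hQ hco hl hlN, tr_T_comm' hN hl hlN hlM])) φ
    exact congrArg Subtype.val h1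

/-- inclusion of Hecke algebras -/
theorem exists_incl {S' : Set ℕ} (hSS : S ⊆ S') :
    ∃ ψ : heckeAlgebra M 2 S' →+* heckeAlgebra M 2 S, ∀ (l : ℕ) (hl : l.Prime) (hlM : ¬ l ∣ M)
      (hlS' : l ∉ S') (hlS : l ∉ S), ψ (heckeAlgebra.T hl hlM hlS') = heckeAlgebra.T hl hlM hlS := by
  have hle : heckeAlgebra M 2 S' ≤ heckeAlgebra M 2 S := by
    apply Algebra.adjoin_mono
    rintro x (⟨l, hl, hlN, hlS, rfl⟩ | ⟨q, hqN, hq, hqS, rfl⟩)
    · exact Or.inl ⟨l, hl, hlN, fun h => hlS (hSS h), rfl⟩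
    · exact Or.inr ⟨q, hqN, hq, fun h => hqS (hSS h), rfl⟩
  exact ⟨(Subalgebra.inclusion hle).toRingHom, fun l hl hlM hlS' hlS => rfl⟩

/-- restriction of Hecke algebras from level `M * r` to level `M` -/
theorem exists_restr {r : ℕ} [NeZero (M * r)] (hr : r.Prime) (hrM : ¬ r ∣ M)
    (hMS : ∀ q : ℕ, q.Prime → q ∣ M → q ∈ S) (hrS : r ∈ S) :
    ∃ ψ : heckeAlgebra (M * r) 2 S →+* heckeAlgebra M 2 S, ∀ (l : ℕ) (hl : l.Prime)
      (hlM : ¬ l ∣ M) (hlM' : ¬ l ∣ M * r)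
      (hlS : l ∉ S), ψ (heckeAlgebra.T hl hlM' hlS) = heckeAlgebra.T hl hlM hlS := by
  have hNS : ∀ q : ℕ, q.Prime → q ∣ M * r → q ∈ S := by
    intro q hq hqN
    rcases hq.dvd_mul.1 hqN with h | h
    · exact hMS q hq h
    · rwa [(Nat.prime_dvd_prime_iff_eq hq hr).1 h]
  let F : LZ M →+ LZ (M * r) :=
    { toFun := fun φ => ⟨(famRes (dvd_mul_right M r)).op ℤ φ.1,
        isParabolicHom_op (famRes (dvd_mul_right M r)) φ.2⟩
      map_zero' := Subtype.ext (map_zero _)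
      map_add' := fun φ ψ => Subtype.ext (map_add _ φ.1 ψ.1) }
  have hF : ∀ (l : ℕ) (hl : l.Prime) (hlN : ¬ l ∣ M) (hlM : ¬ l ∣ M * r) (φ : LZ M),
      F ⟨opT M hl hlN ℤ φ.1, isParabolicHom_opT hl hlN φ.2⟩ =
        ⟨opT (M * r) hl hlM ℤ (F φ).1, isParabolicHom_opT hl hlM (F φ).2⟩ := by
    intro l hl hlN hlM φ
    apply Subtype.ext
    change (famRes (dvd_mul_right M r)).op ℤ (opT M hl hlN ℤ φ.1) =
      opT (M * r) hl hlM ℤ ((famRes (dvd_mul_right M r)).op ℤ φ.1)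
    rw [opT_eq hl hlN, opT_eq hl hlM, res_T_comm hl (dvd_mul_right M r) hlN hlM]
  have hinj : Function.Injective F := by
    rw [injective_iff_map_eq_zero]
    intro φ hφ
    have h1 := congrArg Subtype.val hφ
    change (famRes (dvd_mul_right M r)).op ℤ φ.1 = 0 at h1
    have h2 := tr_res hr hrM φ.1
    rw [h1, map_zero] at h2
    apply Subtype.ext
    refine AddMonoidHom.ext fun γ => ?_
    have h3 := DFunLike.congr_fun h2 γ
    rw [AddMonoidHom.zero_apply, AddMonoidHom.nsmul_apply, nsmul_eq_mul, eq_comm,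
      mul_eq_zero] at h3
    rcases h3 with h3 | h3
    · exact absurd h3 (by positivity)
    · exact h3
  have hker : ∀ P : MvPolynomial (sg S) ℤ, evT hNS P = 0 → evT (N := M) hMS P = 0 := by
    intro P hP
    apply actL_injective M
    rw [map_zero]
    refine LinearMap.ext fun φ => ?_
    apply hinj
    rw [equivariant hMS hNS F hF P φ, hP, map_zero, LinearMap.zero_apply, LinearMap.zero_apply,
      map_zero]
  let ψ : heckeAlgebra (M * r) 2 S →+* heckeAlgebra M 2 S := RingHom.liftOfSurjective (evT hNS)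
      (evT_surjective (N := M * r) hNS) ⟨evT (N := M) hMS, fun P hP => hker P hP⟩
  have hψ : ∀ P, ψ (evT hNS P) = evT (N := M) hMS P := fun P =>
      RingHom.liftOfRightInverse_comp_apply _ _ _ _ P
  refine ⟨ψ, fun l hl hlM hlM' hlS => ?_⟩
  have := hψ (MvPolynomial.X (⟨l, hl, hlS⟩ : sg S))
  rwa [evT_X, evT_X] at this

end

end Fermat.Agent.HD
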