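import Fermat.Agent.HD.Core
import Fermat.Agent.HD.Kill
import Fermat.Agent.Kum.Final

/-!
# The Galois modules `XL N (p ^ n)` in the format of `HD.core`
-/

set_option autoImplicit false
set_option linter.unusedSectionVars false
set_option linter.style.haveILetI false

open TensorProduct ModularFormClass CuspForm ModularCurve ModularCurve.Period

namespace Fermat.Agent.HD

open Fermat.Agent.GalRep Fermat.Agent.Kum Fermat.Agent.HeckeHom Fermat.Agent.ALCoh

noncomputable section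

variable {N : ℕ} [NeZero N]

section

variable {m : ℕ} [NeZero m]

theorem XL_killed (x : XL N m) : m • x = 0 := by
  obtain ⟨φ, rfl⟩ := mkX_surjective x
  exact mkX_nsmul φ

instance finite_XL : Finite (XL N m) := by
  have : Module.Finite ℤ (XL N m) := by
    have : Function.Surjective (mkX : LZ N →+ XL N m).toIntLinearMap := mkX_surjective
    exact Module.Finite.of_surjective _ this
  have := Module.Finite.iff_addGroup_fg.1 this
  have hT : IsAddTorsion (XL N m) := fun x =>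
    isOfFinAddOrder_iff_nsmul_eq_zero.2 ⟨m, NeZero.pos m, XL_killed x⟩
  exact AddCommGroup.finite_of_fg_isAddTorsion _ hT

theorem mkX_eq_zero {φ : LZ N} (h : (mkX φ : XL N m) = 0) : ∃ ψ, φ = m • ψ := by
  obtain ⟨ψ, hψ⟩ := (QuotientAddGroup.eq_zero_iff φ).1 h
  exact ⟨ψ, hψ.symm⟩

/-- the Galois action as `ℤ`-linear maps -/
def rX (ι : AlgebraicClosure ℚ →+* ℂ) (N m : ℕ) [NeZero N] [NeZero m] :
    GQ →* Module.End ℤ (XL N m) where
  toFun σ := (AddMonoidHom.mk' (rhoF ι m σ) (rhoF_add ι σ)).toIntLinearMap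
  map_one' := LinearMap.ext fun ξ => rhoF_one ι ξ
  map_mul' σ τ := LinearMap.ext fun ξ => rhoF_mul ι σ τ ξ

@[simp] theorem rX_apply (ι : AlgebraicClosure ℚ →+* ℂ) (σ : GQ) (ξ : XL N m) :
    rX ι N m σ ξ = rhoF ι m σ ξ := rfl

/-- the Hecke action as `ℤ`-linear maps -/
def aX (N m : ℕ) [NeZero N] [NeZero m] {S : Set ℕ} (t : heckeAlgebra N 2 S) :
    Module.End ℤ (XL N m) :=
  (actX N m S t : XL N m →+ XL N m).toIntLinearMap

@[simp] theorem aX_apply {S : Set ℕ} (t : heckeAlgebra N 2 S) (ξ : XL N m) :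
    aX N m t ξ = actX N m S t ξ := rfl

theorem exists_level_rX (ι : AlgebraicClosure ℚ →+* ℂ) :
    ∃ L : IntermediateField ℚ (AlgebraicClosure ℚ), FiniteDimensional ℚ L ∧
      ∀ σ : GQ, (∀ x ∈ L, σ x = x) → rX ι N m σ = 1 := by
  obtain ⟨L, hL, h⟩ := exists_level_rhoF (N := N) (m := m) (K := AlgebraicClosure ℚ) ι
  exact ⟨L, hL, fun σ hσ => LinearMap.ext fun ξ => h σ hσ ξ⟩

theorem rX_frob (ι : AlgebraicClosure ℚ →+* ℂ) {S : Set ℕ} {ℓ : ℕ} (hℓ : ℓ.Prime) (hN : ¬ ℓ ∣ N)
    (hS : ℓ ∉ S) (hm : ¬ ℓ ∣ m)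
    {A : ValuationSubring (AlgebraicClosure ℚ)} (hA : A.LiesOverPrime ℓ) {σ : GQ}
    (hσ : A.IsFrobeniusAt σ ℓ) (x : XL N m) :
    rX ι N m σ (rX ι N m σ x) - aX N m (heckeAlgebra.T hℓ hN hS) (rX ι N m σ x) + ℓ • x = 0 :=
  rhoF_frob ι (goodRed hℓ hN hm hA) hℓ hN hS hA hσ x

end

section eigen

variable {S : Set ℕ} {O : Type*} [CommRing O]

/-- eigenvectors of the `T_ℓ` are eigenvectors of the whole Hecke algebra -/
theorem baseChange_aX {m : ℕ} [NeZero m] (hNS : ∀ q : ℕ, q.Prime → q ∣ N → q ∈ S)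
    (χ : heckeAlgebra N 2 S →+* O) (y : O ⊗[ℤ] XL N m)
    (hy : ∀ l : sg S, (aX N m (heckeAlgebra.T l.2.1 (fun h => l.2.2 (hNS l l.2.1 h)) l.2.2 :
      heckeAlgebra N 2 S)).baseChange O y =
        χ (heckeAlgebra.T l.2.1 (fun h => l.2.2 (hNS l l.2.1 h)) l.2.2) • y)
    (t : heckeAlgebra N 2 S) : (aX N m t).baseChange O y = χ t • y := by
  obtain ⟨P, rfl⟩ := evT_surjective hNS t
  have hadd : ∀ a b : heckeAlgebra N 2 S, aX N m (a + b) = aX N m a + aX N m b := by
    intro a b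
    refine LinearMap.ext fun x => ?_
    rw [LinearMap.add_apply, aX_apply, aX_apply, aX_apply, map_add]; rfl
  have hmul : ∀ a b : heckeAlgebra N 2 S, aX N m (a * b) = aX N m a * aX N m b := by
    intro a b
    refine LinearMap.ext fun x => ?_
    rw [Module.End.mul_apply, aX_apply, aX_apply, aX_apply, map_mul]; rfl
  induction P using MvPolynomial.induction_on generalizing y with
  | C a =>
    have h1 : (MvPolynomial.C a : MvPolynomial (sg S) ℤ) = (a : MvPolynomial (sg S) ℤ) := by simp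
    have h2 : aX N m ((a : ℤ) : heckeAlgebra N 2 S) = a • (1 : Module.End ℤ (XL N m)) := by
      refine LinearMap.ext fun x => ?_
      rw [aX_apply, map_intCast]; rfl
    rw [h1, map_intCast, map_intCast, h2, LinearMap.baseChange_smul, LinearMap.smul_apply,
      baseChange_one_apply, Int.cast_smul_eq_zsmul]
  | add P P' ih ih' =>
    rw [map_add, map_add, hadd, LinearMap.baseChange_add, LinearMap.add_apply, ih _ hy, ih' _ hy,
      add_smul]
  | mul_X P l ih =>
    rw [map_mul, map_mul, hmul, baseChange_mul, evT_X, hy l, map_smul, ih _ hy, smul_smul,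
      mul_comm]

end eigen

end

end Fermat.Agent.HD
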